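import Fermat.Agent.S26.H626.FormalChart

/-!
# S26, leaf UFD, part U2 (helper626): the formal chart of the local ring of a smooth algebra
over an algebraically closed field at a maximal ideal.
-/

set_option autoImplicit false
set_option linter.style.haveILetI false

universe u

open IsLocalRing

namespace Fermat.Agent.S26.H626

/-- The residue field of the local ring of a finite type algebra over an algebraically closed
field at a maximal ideal is the base field. -/
theorem bijective_algebraMap_residueField (K : Type u) [Field K] [IsAlgClosed K] (B : Type u)
    [CommRing B] [Algebra K B] [Algebra.FiniteType K B] (m : Ideal B) [m.IsMaximal] (R : Type u)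
    [CommRing R] [Algebra B R] [IsLocalization.AtPrime R m] [IsLocalRing R] [Algebra K R]
    [IsScalarTower K B R] :
    Function.Bijective (algebraMap K (ResidueField R)) := by
  have hsurj : Function.Surjective (algebraMap B (ResidueField R)) := by
    intro y
    obtain ⟨r, rfl⟩ := Ideal.Quotient.mk_surjective y
    obtain ⟨b, hb⟩ := Ideal.Quotient.mk_surjective
      ((IsLocalization.AtPrime.equivQuotMaximalIdeal m R).symm (Ideal.Quotient.mk _ r))
    refine ⟨b, ?_⟩
    have := congrArg (IsLocalization.AtPrime.equivQuotMaximalIdeal m R) hb
    rw [RingEquiv.apply_symm_apply, IsLocalization.AtPrime.equivQuotMaximalIdeal_apply_mk] at this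
    exact this
  haveI : Algebra.FiniteType K (ResidueField R) :=
    Algebra.FiniteType.of_surjective (IsScalarTower.toAlgHom K B (ResidueField R)) hsurj
  haveI : Module.Finite K (ResidueField R) := finite_of_finite_type_of_isJacobsonRing K _
  exact IsAlgClosed.algebraMap_bijective_of_isIntegral

/-- **U2** (statement of the skeleton of helper445, unbundled): the Taylor chart of the local
ring of a smooth algebra at a `K`-point. -/
theorem exists_formalChart_of_smooth (K : Type u) [Field K] [IsAlgClosed K] (B : Type u)
    [CommRing B] [Algebra K B] [Algebra.Smooth K B] (m : Ideal B) [m.IsMaximal] (R : Type u)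
    [CommRing R] [Algebra B R] [IsLocalization.AtPrime R m] :
    haveI : IsLocalRing R := IsLocalization.AtPrime.isLocalRing R m
    ∃ (g : ℕ) (τ : R →+* MvPowerSeries (Fin g) K),
      (∀ n : ℕ, (maximalIdeal (MvPowerSeries (Fin g) K) ^ n).comap τ = maximalIdeal R ^ n) ∧
        ∀ (n : ℕ) (s : MvPowerSeries (Fin g) K),
          ∃ r : R, s - τ r ∈ maximalIdeal (MvPowerSeries (Fin g) K) ^ n := by
  haveI : IsLocalRing R := IsLocalization.AtPrime.isLocalRing R m
  letI : Algebra K R := ((algebraMap B R).comp (algebraMap K B)).toAlgebra
  haveI : IsScalarTower K B R := IsScalarTower.of_algebraMap_eq (fun _ => rfl)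
  haveI : Algebra.FiniteType K B := inferInstance
  haveI : IsNoetherianRing B := Algebra.FiniteType.isNoetherianRing K B
  haveI : IsNoetherianRing R := IsLocalization.isNoetherianRing m.primeCompl R inferInstance
  haveI : Algebra.FormallySmooth B R := Algebra.FormallySmooth.of_isLocalization m.primeCompl
  haveI : Algebra.FormallySmooth K R := Algebra.FormallySmooth.comp K B R
  have hres := bijective_algebraMap_residueField K B m R
  obtain ⟨τ, h1, h2⟩ := exists_formalChart_of_isLocalRing K R hres
  exact ⟨_, τ.toRingHom, h1, h2⟩

end Fermat.Agent.S26.H626
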