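import Mathlib

/-!
# S26, block CUBE, leaf C4b, part T1 (helper626): finiteness of integral closure over a
perfect field (E. Noether)

`finite_integralClosure`: the integral closure of a finitely generated domain `R` over a perfect
field `K` in a finitely generated algebraic field extension `L` is a finite `R`-module.
-/

set_option autoImplicit false
set_option linter.style.haveILetI false

universe u

namespace Fermat.Agent.S26.H626

section Core

/-- Finiteness of the integral closure in a finite (possibly inseparable) extension of the
fraction field, for an integrally closed noetherian domain whose iterated Frobenius maps are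
finite. -/
theorem finite_integralClosure_of_frobenius_finite
    (A : Type u) [CommRing A] [IsDomain A] [IsIntegrallyClosed A] [IsNoetherianRing A]
    (F : Type u) [Field F] [Algebra A F] [IsFractionRing A F]
    (L : Type u) [Field L] [Algebra F L] [Algebra A L] [IsScalarTower A F L]
    [FiniteDimensional F L] (q : ℕ) [ExpChar A q]
    (hfrob : ∀ n, (iterateFrobenius A q n).Finite) :
    Module.Finite A (integralClosure A L) := by
  classical
  have hAF : Function.Injective (algebraMap A F) := IsFractionRing.injective A F
  haveI : ExpChar F q := expChar_of_injective_algebraMap hAF q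
  let E := separableClosure F L
  haveI : ExpChar E q := expChar_of_injective_algebraMap (algebraMap F E).injective q
  haveI : ExpChar L q := expChar_of_injective_algebraMap (algebraMap F L).injective q
  haveI : IsScalarTower A E L := IsScalarTower.of_algebraMap_eq (fun a => by
    rw [IsScalarTower.algebraMap_apply A F L, IsScalarTower.algebraMap_apply A F E,
      ← IsScalarTower.algebraMap_apply F E L])
  set n := IsPurelyInseparable.exponent E L with hn
  let Φ : L →+* E := IsPurelyInseparable.iterateFrobenius E L q (le_refl n)
  have hΦ : ∀ a : L, algebraMap E L (Φ a) = a ^ q ^ n := fun a =>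
    IsPurelyInseparable.algebraMap_iterateFrobenius E q (le_refl n) a
  haveI hCE : Module.Finite A (integralClosure A E) :=
    IsIntegralClosure.finite A F E (integralClosure A E)
  let ι := iterateFrobenius A q n
  have hι : Function.Injective ι := iterateFrobenius_inj A q n
  let A' : Subring A := ι.range
  let σ : A ≃+* A' := RingEquiv.ofBijective ι.rangeRestrict
    ⟨fun a b h => hι (congrArg Subtype.val h), ι.rangeRestrict_surjective⟩
  haveI : IsNoetherianRing A' := isNoetherianRing_of_ringEquiv A σ
  haveI : Module.Finite A' A := by
    refine @Module.Finite.of_equiv_equiv A A A' A _ _ _ _ ι.toAlgebra _ σ (RingEquiv.refl A) ?_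
      (hfrob n)
    ext a
    rfl
  haveI : Module.Finite A' (integralClosure A E) := Module.Finite.trans A _
  haveI : IsNoetherian A' (integralClosure A E) := isNoetherian_of_isNoetherianRing_of_finite _ _
  have hmem : ∀ x : integralClosure A L, Φ x ∈ integralClosure A E := by
    intro x
    have h1 : IsIntegral A ((x : L) ^ q ^ n) := x.2.pow _
    rw [← hΦ] at h1
    exact (isIntegral_algHom_iff (IsScalarTower.toAlgHom A E L)
      (algebraMap E L).injective).1 h1
  have hΦalg : ∀ a : A, Φ (algebraMap A L a) = algebraMap A E (a ^ q ^ n) := by
    intro a
    apply (algebraMap E L).injective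
    rw [hΦ, ← IsScalarTower.algebraMap_apply A E L, map_pow]
  let f : integralClosure A L →ₛₗ[(σ : A →+* A')] integralClosure A E :=
    { toFun := fun x => ⟨Φ x, hmem x⟩
      map_add' := fun x y => Subtype.ext (by simp)
      map_smul' := fun a x => Subtype.ext (by
        change Φ ((a • x : integralClosure A L) : L) = _
        have h1 : ((a • x : integralClosure A L) : L) = algebraMap A L a * (x : L) := by
          rw [Algebra.smul_def]; rfl
        rw [h1, map_mul, hΦalg]
        have h2 : (((σ : A →+* A') a • (⟨Φ x, hmem x⟩ : integralClosure A E) :
            integralClosure A E) : E) = algebraMap A E (a ^ q ^ n) * Φ x := by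
          change ((σ a : A) • (⟨Φ x, hmem x⟩ : integralClosure A E) : integralClosure A E).1 = _
          rw [Algebra.smul_def]
          rfl
        exact h2.symm) }
  have hf : Function.Injective f := by
    intro x y h
    have := congrArg Subtype.val h
    exact Subtype.ext (Φ.injective this)
  haveI i1 : RingHomInvPair (σ : A →+* A') (σ.symm : A' →+* A) := RingHomInvPair.of_ringEquiv σ
  haveI i2 : RingHomInvPair (σ.symm : A' →+* A) (σ : A →+* A') := RingHomInvPair.symm _ _
  exact Module.Finite.of_injective (σ' := (σ.symm : A' →+* A)) f hf

end Core

section Poly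

/-- Over a perfect field, the iterated Frobenius of a polynomial ring is a finite ring
homomorphism. -/
theorem iterateFrobenius_mvPolynomial_finite (K : Type u) [Field K] [PerfectField K] (d : ℕ)
    (q : ℕ) [ExpChar K q] (n : ℕ) :
    (iterateFrobenius (MvPolynomial (Fin d) K) q n).Finite := by
  classical
  rw [RingHom.finite_iff_isIntegral_and_finiteType]
  constructor
  · intro x
    refine ⟨Polynomial.X ^ (q ^ n) - Polynomial.C x,
      Polynomial.monic_X_pow_sub_C _ (pow_ne_zero _ (expChar_ne_zero K q)), ?_⟩
    rw [Polynomial.eval₂_sub, Polynomial.eval₂_pow, Polynomial.eval₂_X, Polynomial.eval₂_C,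
      iterateFrobenius_def, sub_self]
  · letI : Algebra (MvPolynomial (Fin d) K) (MvPolynomial (Fin d) K) :=
      (iterateFrobenius (MvPolynomial (Fin d) K) q n).toAlgebra
    refine ⟨⟨Finset.univ.image MvPolynomial.X, ?_⟩⟩
    rw [eq_top_iff]
    have key : ∀ p : MvPolynomial (Fin d) K, p ∈ Algebra.adjoin (MvPolynomial (Fin d) K)
        ((Finset.univ.image MvPolynomial.X : Finset (MvPolynomial (Fin d) K)) :
          Set (MvPolynomial (Fin d) K)) := by
      intro p
      induction p using MvPolynomial.induction_on with
      | C a =>
        obtain ⟨b, hb⟩ := (bijective_iterateFrobenius K q n).2 a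
        have h : (MvPolynomial.C a : MvPolynomial (Fin d) K) =
            iterateFrobenius (MvPolynomial (Fin d) K) q n (MvPolynomial.C b) := by
          rw [iterateFrobenius_def, ← map_pow, ← iterateFrobenius_def, hb]
        rw [h]
        exact Subalgebra.algebraMap_mem _ (MvPolynomial.C b)
      | add p q hp hq => exact add_mem hp hq
      | mul_X p i hp =>
        exact mul_mem hp (Algebra.subset_adjoin (by simp))
    exact fun p _ => key p

end Poly

/-- **T1** (E. Noether): the integral closure of a finitely generated domain over a perfect
field in a finitely generated algebraic field extension is a finite module.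
(Exact statement of the skeleton `H27/C4bSpec.lean` of helper27.) -/
theorem finite_integralClosure (K : Type u) [Field K] [PerfectField K]
    (R : Type u) [CommRing R] [IsDomain R] [Algebra K R] [Algebra.FiniteType K R]
    (L : Type u) [Field L] [Algebra R L] [Module.IsTorsionFree R L]
    [Algebra K L] [IsScalarTower K R L]
    (hL : Algebra.IsAlgebraic R L) (hfg : Algebra.EssFiniteType K L) :
    Module.Finite R (integralClosure R L) := by
  obtain ⟨d, g, hginj, hgfin⟩ := exists_finite_inj_algHom_of_fg K R
  letI : Algebra (MvPolynomial (Fin d) K) R := g.toRingHom.toAlgebra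
  haveI : IsScalarTower K (MvPolynomial (Fin d) K) R :=
    IsScalarTower.of_algebraMap_eq (fun a => (g.commutes a).symm)
  haveI : Module.Finite (MvPolynomial (Fin d) K) R := hgfin
  letI : Algebra (MvPolynomial (Fin d) K) L := ((algebraMap R L).comp g.toRingHom).toAlgebra
  haveI : IsScalarTower (MvPolynomial (Fin d) K) R L := IsScalarTower.of_algebraMap_eq (fun _ => rfl)
  haveI : IsScalarTower K (MvPolynomial (Fin d) K) L := IsScalarTower.of_algebraMap_eq (fun a => by
    rw [IsScalarTower.algebraMap_apply K R L, IsScalarTower.algebraMap_apply K (MvPolynomial (Fin d) K) R,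
      ← IsScalarTower.algebraMap_apply (MvPolynomial (Fin d) K) R L])
  have hRL : Function.Injective (algebraMap R L) := FaithfulSMul.algebraMap_injective R L
  have hPL : Function.Injective (algebraMap (MvPolynomial (Fin d) K) L) := hRL.comp hginj
  -- the fraction field of the polynomial ring
  letI : Algebra (FractionRing (MvPolynomial (Fin d) K)) L := (IsFractionRing.lift hPL).toAlgebra
  haveI : IsScalarTower (MvPolynomial (Fin d) K) (FractionRing (MvPolynomial (Fin d) K)) L :=
    IsScalarTower.of_algebraMap_eq (fun a => (IsFractionRing.lift_algebraMap hPL a).symm)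
  haveI : IsScalarTower K (FractionRing (MvPolynomial (Fin d) K)) L :=
    IsScalarTower.of_algebraMap_eq (fun a => by
      rw [IsScalarTower.algebraMap_apply K (MvPolynomial (Fin d) K)
          (FractionRing (MvPolynomial (Fin d) K)),
        ← IsScalarTower.algebraMap_apply (MvPolynomial (Fin d) K)
          (FractionRing (MvPolynomial (Fin d) K)) L,
        ← IsScalarTower.algebraMap_apply K (MvPolynomial (Fin d) K) L])
  haveI : Algebra.EssFiniteType (FractionRing (MvPolynomial (Fin d) K)) L :=
    Algebra.EssFiniteType.of_comp K (FractionRing (MvPolynomial (Fin d) K)) L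
  haveI : Algebra.IsAlgebraic (MvPolynomial (Fin d) K) R := inferInstance
  haveI : Algebra.IsAlgebraic (MvPolynomial (Fin d) K) L :=
    Algebra.IsAlgebraic.trans (MvPolynomial (Fin d) K) R L
  haveI : Algebra.IsAlgebraic (FractionRing (MvPolynomial (Fin d) K)) L :=
    Algebra.IsAlgebraic.extendScalars (R := MvPolynomial (Fin d) K)
      (IsFractionRing.injective (MvPolynomial (Fin d) K) (FractionRing (MvPolynomial (Fin d) K)))
  haveI : Module.Finite (FractionRing (MvPolynomial (Fin d) K)) L :=
    Algebra.finite_of_essFiniteType_of_isAlgebraic
  haveI : ExpChar K (ringExpChar K) := ringExpChar.expChar K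
  have hcore : Module.Finite (MvPolynomial (Fin d) K)
      (integralClosure (MvPolynomial (Fin d) K) L) :=
    finite_integralClosure_of_frobenius_finite (MvPolynomial (Fin d) K)
      (FractionRing (MvPolynomial (Fin d) K)) L (ringExpChar K)
      (iterateFrobenius_mvPolynomial_finite K d (ringExpChar K))
  -- transfer to `R`
  have hint : ∀ x : L, IsIntegral (MvPolynomial (Fin d) K) x → IsIntegral R x :=
    fun x hx => hx.tower_top
  let φ : integralClosure (MvPolynomial (Fin d) K) L →ₗ[MvPolynomial (Fin d) K]
      integralClosure R L :=
    { toFun := fun x => ⟨x.1, hint x.1 x.2⟩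
      map_add' := fun _ _ => rfl
      map_smul' := fun a x => Subtype.ext (by
        change (a • x : integralClosure (MvPolynomial (Fin d) K) L).1 = a • x.1
        rfl) }
  have hφ : Function.Surjective φ := by
    rintro ⟨x, hx⟩
    exact ⟨⟨x, isIntegral_trans x hx⟩, rfl⟩
  haveI : Module.Finite (MvPolynomial (Fin d) K) (integralClosure R L) :=
    Module.Finite.of_surjective φ hφ
  exact Module.Finite.of_restrictScalars_finite (MvPolynomial (Fin d) K) R _

end Fermat.Agent.S26.H626
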