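/-
Row S26, block CUBE, leaf C4b (helper626): the scheme side of the normalisation of an integral
curve.  For an integral scheme `Γ` with `γ : Γ ⟶ Spec K` locally of finite type, the
normalisation `normScheme Γ` of `Γ` in its function field (Mathlib's relative normalisation of
the generic point `Spec K(Γ) ⟶ Γ`) with `normHom Γ : normScheme Γ ⟶ Γ` is integral;
* `isFinite_normHom` (N2, `K` perfect), `surjective_normHom` (N4), `isProper_normHom_comp` (N3);
* `smoothOfRelativeDimension_normHom_comp` (N5, `K` algebraically closed, `trdeg_K K(Γ) = 1`).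
Uses T1 (H626), T2 and T3 (H507).
-/
import Mathlib
import Fermat.Agent.S26.H626.FiniteIntegralClosure
import Fermat.Agent.S26.H507.DedekindSmooth
import Fermat.Agent.S26.H507.C4bParts

set_option autoImplicit false
set_option linter.style.haveILetI false
set_option linter.unusedSectionVars false
universe u
open CategoryTheory CategoryTheory.Limits AlgebraicGeometry

namespace Fermat.Agent.S26.H626

/-- Dedekind domains transport along ring isomorphisms. -/
theorem isDedekindDomain_of_ringEquiv {R S : Type*} [CommRing R] [CommRing S] (e : R ≃+* S)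
    [IsDedekindDomain S] : IsDedekindDomain R := by
  haveI : IsDomain R := e.toMulEquiv.isDomain S
  haveI : IsNoetherianRing R := isNoetherianRing_of_ringEquiv S e.symm
  haveI : Ring.DimensionLEOne R := Ring.DimensionLEOne.of_ringEquiv e
  haveI : IsIntegrallyClosed R := IsIntegrallyClosed.of_equiv e.symm
  exact { }


noncomputable section

/-- generic point morphism -/
abbrev genHom (Γ : Scheme.{u}) [IsIntegral Γ] : Spec Γ.functionField ⟶ Γ :=
  Γ.fromSpecStalk (genericPoint Γ)

variable (Γ : Scheme.{u}) [IsIntegral Γ]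

theorem genericPoint_mem_of_nonempty (U : Γ.Opens) [hU : Nonempty U] : genericPoint Γ ∈ U :=
  ((genericPoint_spec Γ).mem_open_set_iff U.2).mpr (by
    obtain ⟨x, hx⟩ := hU
    exact ⟨x, ⟨trivial, hx⟩⟩)

theorem genHom_preimage_eq_top (U : Γ.Opens) [Nonempty U] :
    (genHom Γ) ⁻¹ᵁ U = ⊤ := by
  have hg : genericPoint Γ ∈ U := genericPoint_mem_of_nonempty Γ U
  ext x
  simp only [TopologicalSpace.Opens.map_coe, Set.mem_preimage, SetLike.mem_coe,
    TopologicalSpace.Opens.coe_top, Set.mem_univ, iff_true]
  have hx : (genHom Γ) x ⤳ genericPoint Γ := by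
    have : (genHom Γ) x ∈ Set.range (Γ.fromSpecStalk (genericPoint Γ)) := ⟨x, rfl⟩
    rw [Scheme.range_fromSpecStalk] at this
    exact this
  exact hx.mem_open U.2 hg

/-- The sections of `Spec K(Γ)` over the preimage of a nonempty open are `K(Γ)`. -/
def genSecIso (U : Γ.Opens) [Nonempty U] :
    Γ((Spec Γ.functionField), (genHom Γ) ⁻¹ᵁ U) ≅ Γ.functionField :=
  (Spec Γ.functionField).presheaf.mapIso (eqToIso (genHom_preimage_eq_top Γ U).symm).op ≪≫
    Scheme.ΓSpecIso _

theorem genHom_app_genSecIso (U : Γ.Opens) [Nonempty U] :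
    (genHom Γ).app U ≫ (genSecIso Γ U).hom = Γ.germToFunctionField U := by
  unfold genSecIso Scheme.germToFunctionField
  rw [Scheme.fromSpecStalk_app (genericPoint_mem_of_nonempty Γ U)]
  simp only [Category.assoc, Functor.mapIso_hom, Iso.trans_hom, Iso.op_hom, eqToIso.hom, eqToHom_op]
  rw [← Functor.map_comp_assoc]
  have : ((homOfLE le_top : (genHom Γ) ⁻¹ᵁ U ⟶ ⊤).op ≫ eqToHom (by rw [genHom_preimage_eq_top])) = 𝟙 _ := rfl
  erw [this]
  simp

/-- The sections of `Spec K(Γ)` over the preimage of a nonempty open, as an algebra over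
`Γ(Γ, U)`, are `K(Γ)`. -/
def genSecAlgEquiv (U : Γ.Opens) [Nonempty U] :
    letI := ((genHom Γ).app U).hom.toAlgebra
    Γ((Spec Γ.functionField), (genHom Γ) ⁻¹ᵁ U) ≃ₐ[Γ(Γ, U)] Γ.functionField :=
  letI := ((genHom Γ).app U).hom.toAlgebra
  { (genSecIso Γ U).commRingCatIsoToRingEquiv with
    commutes' := fun r => by
      have := congrArg (fun φ => φ.hom r) (genHom_app_genSecIso Γ U)
      exact this }

variable {K : Type u} [Field K] (γ : Γ ⟶ Spec (CommRingCat.of K))

/-- The `K`-algebra structure on the sections of a `K`-scheme. -/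
abbrev secAlgebra (U : Γ.Opens) : Algebra K Γ(Γ, U) :=
  ((γ.appLE ⊤ U le_top).hom.comp (Scheme.ΓSpecIso (CommRingCat.of K)).inv.hom).toAlgebra

theorem finiteType_secAlgebra [LocallyOfFiniteType γ] (U : Γ.Opens) (hU : IsAffineOpen U) :
    letI := secAlgebra Γ γ U
    Algebra.FiniteType K Γ(Γ, U) := by
  letI := secAlgebra Γ γ U
  have h1 : (γ.appLE ⊤ U le_top).hom.FiniteType :=
    γ.finiteType_appLE (isAffineOpen_top _) hU le_top
  have h2 : ((γ.appLE ⊤ U le_top).hom.comp (Scheme.ΓSpecIso (CommRingCat.of K)).inv.hom).FiniteType :=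
    h1.comp (RingHom.FiniteType.of_surjective _
      (ConcreteCategory.bijective_of_isIso (Scheme.ΓSpecIso (CommRingCat.of K)).inv).2)
  exact h2

/-- **Chart finiteness**: the integral closure of `Γ(Γ, U)` in the sections of `Spec K(Γ)` is
a finite module, for `Γ` integral and locally of finite type over a perfect field. -/
theorem finite_integralClosure_chart [PerfectField K] [LocallyOfFiniteType γ] (U : Γ.Opens)
    (hU : IsAffineOpen U) [Nonempty U] :
    letI := ((genHom Γ).app U).hom.toAlgebra
    Module.Finite Γ(Γ, U) (integralClosure Γ(Γ, U) Γ((Spec Γ.functionField), (genHom Γ) ⁻¹ᵁ U)) := by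
  letI := ((genHom Γ).app U).hom.toAlgebra
  letI := secAlgebra Γ γ U
  haveI := finiteType_secAlgebra Γ γ U hU
  haveI : IsFractionRing Γ(Γ, U) Γ.functionField :=
    functionField_isFractionRing_of_isAffineOpen Γ U hU
  letI : Algebra K Γ.functionField :=
    ((algebraMap Γ(Γ, U) Γ.functionField).comp (algebraMap K Γ(Γ, U))).toAlgebra
  haveI : IsScalarTower K Γ(Γ, U) Γ.functionField := IsScalarTower.of_algebraMap_eq (fun _ => rfl)
  haveI : Module.IsTorsionFree Γ(Γ, U) Γ.functionField := inferInstance
  have hL : Algebra.IsAlgebraic Γ(Γ, U) Γ.functionField :=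
    IsLocalization.isAlgebraic _ (nonZeroDivisors Γ(Γ, U))
  have hfg : Algebra.EssFiniteType K Γ.functionField := by
    haveI : Algebra.EssFiniteType Γ(Γ, U) Γ.functionField :=
      Algebra.EssFiniteType.of_isLocalization _ (nonZeroDivisors Γ(Γ, U))
    exact Algebra.EssFiniteType.comp K Γ(Γ, U) Γ.functionField
  haveI := finite_integralClosure K Γ(Γ, U) Γ.functionField hL hfg
  exact Module.Finite.equiv (AlgEquiv.mapIntegralClosure (genSecAlgEquiv Γ U)).symm.toLinearEquiv


/-! ## Finiteness of the normalisation -/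

/-- The normalisation of an integral scheme (in its function field). -/
abbrev normScheme : Scheme.{u} := (genHom Γ).normalization

/-- The normalisation morphism. -/
abbrev normHom : normScheme Γ ⟶ Γ := (genHom Γ).fromNormalization

instance isIntegral_normScheme : IsIntegral (normScheme Γ) := by
  unfold normScheme; infer_instance

/-- **N2.** The normalisation of an integral scheme locally of finite type over a perfect field
is finite. -/
theorem isFinite_normHom [PerfectField K] [LocallyOfFiniteType γ] : IsFinite (normHom Γ) := by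
  haveI : IsAffineHom (normHom Γ) := inferInstance
  refine ⟨fun U hU => ?_⟩
  letI := ((genHom Γ).app U).hom.toAlgebra
  rw [(genHom Γ).fromNormalization_app hU]
  have h2 : ((genHom Γ).normalizationObjIso hU).inv.hom.Finite :=
    RingHom.Finite.of_surjective _
      (ConcreteCategory.bijective_of_isIso ((genHom Γ).normalizationObjIso hU).inv).2
  refine RingHom.Finite.comp h2 ?_
  change Module.Finite Γ(Γ, U) (integralClosure Γ(Γ, U) Γ((Spec Γ.functionField), (genHom Γ) ⁻¹ᵁ U))
  by_cases hne : Nonempty U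
  · exact finite_integralClosure_chart Γ γ U hU
  · have hU0 : U = ⊥ := by
      ext x
      simp only [TopologicalSpace.Opens.coe_bot, Set.mem_empty_iff_false, iff_false]
      exact fun hx => hne ⟨⟨x, hx⟩⟩
    haveI : Subsingleton Γ((Spec Γ.functionField), (genHom Γ) ⁻¹ᵁ U) := by
      have : (genHom Γ) ⁻¹ᵁ U = ⊥ := by rw [hU0]; rfl
      rw [this]
      infer_instance
    infer_instance


/-- **N4.** The normalisation morphism is surjective. -/
theorem surjective_normHom : Function.Surjective (normHom Γ) := by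
  have hcl : IsClosed (Set.range (normHom Γ)) :=
    (normHom Γ).isClosedMap.isClosed_range
  have hg : genericPoint Γ ∈ Set.range (normHom Γ) := by
    refine ⟨(genHom Γ).toNormalization (IsLocalRing.closedPoint _), ?_⟩
    rw [← Scheme.Hom.comp_apply, (genHom Γ).toNormalization_fromNormalization]
    exact Scheme.fromSpecStalk_closedPoint
  have huniv : Set.range (normHom Γ) = Set.univ := by
    refine Set.eq_univ_of_univ_subset ?_
    rw [← genericPoint_closure Γ]
    exact hcl.closure_subset_iff.mpr (Set.singleton_subset_iff.mpr hg)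
  exact Set.range_eq_univ.mp huniv

/-- **N3.** The normalisation of a proper integral scheme over a perfect field is proper. -/
theorem isProper_normHom_comp [PerfectField K] [IsProper γ] : IsProper (normHom Γ ≫ γ) := by
  haveI := isFinite_normHom Γ γ
  infer_instance


/-! ## Smoothness of the normalisation of a curve -/

/-- The structure map `K → K(Γ)` of the function field of an integral `K`-scheme (the same
formula as `Fermat.Agent.S26.ffStr`). -/
def ffStrK : K →+* Γ.functionField :=
  ((Scheme.ΓSpecIso (CommRingCat.of K)).inv ≫ γ.appTop ≫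
    Γ.presheaf.germ ⊤ (genericPoint Γ) (TopologicalSpace.Opens.mem_top _)).hom

theorem ffStrK_eq (U : Γ.Opens) [Nonempty U] :
    letI := secAlgebra Γ γ U
    ffStrK Γ γ = (algebraMap Γ(Γ, U) Γ.functionField).comp (algebraMap K Γ(Γ, U)) := by
  letI := secAlgebra Γ γ U
  ext a
  change _ = (Γ.germToFunctionField U).hom ((γ.appLE ⊤ U le_top).hom
    ((Scheme.ΓSpecIso (CommRingCat.of K)).inv.hom a))
  unfold ffStrK Scheme.germToFunctionField
  rw [Scheme.Hom.appLE]
  simp only [CommRingCat.hom_comp, RingHom.coe_comp, Function.comp_apply]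
  erw [TopCat.Presheaf.germ_res_apply]
  rfl


/-- The chart ring of the normalisation over a nonempty affine open is (isomorphic to) the
integral closure of `Γ(Γ, U)` in `K(Γ)`. -/
def normChartEquiv (U : Γ.Opens) (hU : IsAffineOpen U) [Nonempty U] :
    Γ(normScheme Γ, normHom Γ ⁻¹ᵁ U) ≃+* integralClosure Γ(Γ, U) Γ.functionField :=
  letI := ((genHom Γ).app U).hom.toAlgebra
  ((genHom Γ).normalizationObjIso hU).commRingCatIsoToRingEquiv.trans
    (AlgEquiv.mapIntegralClosure (genSecAlgEquiv Γ U)).toRingEquiv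

/-- The chart rings of the normalisation of a curve over a perfect field are Dedekind domains
and not fields. -/
theorem isDedekindDomain_normChart [PerfectField K] [LocallyOfFiniteType γ]
    (htr : letI := (ffStrK Γ γ).toAlgebra; Algebra.trdeg K Γ.functionField = 1)
    (U : Γ.Opens) (hU : IsAffineOpen U) [Nonempty U] :
    IsDedekindDomain Γ(normScheme Γ, normHom Γ ⁻¹ᵁ U) ∧
      ¬ IsField Γ(normScheme Γ, normHom Γ ⁻¹ᵁ U) := by
  letI := secAlgebra Γ γ U
  haveI := finiteType_secAlgebra Γ γ U hU
  haveI : IsFractionRing Γ(Γ, U) Γ.functionField :=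
    functionField_isFractionRing_of_isAffineOpen Γ U hU
  letI : Algebra K Γ.functionField :=
    ((algebraMap Γ(Γ, U) Γ.functionField).comp (algebraMap K Γ(Γ, U))).toAlgebra
  haveI : IsScalarTower K Γ(Γ, U) Γ.functionField := IsScalarTower.of_algebraMap_eq (fun _ => rfl)
  have htr' : Algebra.trdeg K Γ.functionField = 1 := by
    have h := ffStrK_eq Γ γ U
    convert htr using 2
    rw [h]
  have hL : Algebra.IsAlgebraic Γ(Γ, U) Γ.functionField :=
    IsLocalization.isAlgebraic _ (nonZeroDivisors Γ(Γ, U))
  have hfg : Algebra.EssFiniteType K Γ.functionField := by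
    haveI : Algebra.EssFiniteType Γ(Γ, U) Γ.functionField :=
      Algebra.EssFiniteType.of_isLocalization _ (nonZeroDivisors Γ(Γ, U))
    exact Algebra.EssFiniteType.comp K Γ(Γ, U) Γ.functionField
  obtain ⟨hD, hF, -, -⟩ := H507.integralClosure_curve K Γ(Γ, U) Γ.functionField hL hfg htr'
  exact ⟨isDedekindDomain_of_ringEquiv (normChartEquiv Γ U hU),
    fun h => hF ((normChartEquiv Γ U hU).symm.toMulEquiv.isField h)⟩

/-- **N5.** The normalisation of an integral curve locally of finite type over an algebraically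
closed field is smooth of relative dimension one. -/
theorem smoothOfRelativeDimension_normHom_comp [IsAlgClosed K] [LocallyOfFiniteType γ]
    (htr : letI := (ffStrK Γ γ).toAlgebra; Algebra.trdeg K Γ.functionField = 1) :
    SmoothOfRelativeDimension 1 (normHom Γ ≫ γ) := by
  haveI := isFinite_normHom Γ γ
  let ι := {U : Γ.affineOpens // Nonempty U.1}
  let V : ι → (normScheme Γ).affineOpens :=
    fun i => ⟨normHom Γ ⁻¹ᵁ i.1.1, i.1.2.preimage (normHom Γ)⟩
  have hV : ⨆ i, (V i : (normScheme Γ).Opens) = ⊤ := by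
    rw [eq_top_iff]
    intro x _
    obtain ⟨W, hW, hxW, -⟩ := TopologicalSpace.Opens.isBasis_iff_nbhd.mp Γ.isBasis_affineOpens
      (U := ⊤) (x := normHom Γ x) trivial
    exact TopologicalSpace.Opens.mem_iSup.mpr ⟨⟨⟨W, hW⟩, ⟨⟨normHom Γ x, hxW⟩⟩⟩, hxW⟩
  rw [HasRingHomProperty.iff_of_iSup_eq_top (P := @SmoothOfRelativeDimension 1) V hV]
  rintro ⟨⟨U, hU⟩, hne⟩
  haveI : Nonempty U := hne
  obtain ⟨hD, hF⟩ := isDedekindDomain_normChart Γ γ htr U hU
  letI := secAlgebra (normScheme Γ) (normHom Γ ≫ γ) (normHom Γ ⁻¹ᵁ U)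
  haveI := finiteType_secAlgebra (normScheme Γ) (normHom Γ ≫ γ) (normHom Γ ⁻¹ᵁ U)
    (hU.preimage (normHom Γ))
  have h := H507.locally_isStandardSmooth_of_isDedekindDomain K
    Γ(normScheme Γ, normHom Γ ⁻¹ᵁ U) hF
  have hresp := RingHom.locally_respectsIso
    (RingHom.isStandardSmoothOfRelativeDimension_respectsIso (n := 1))
  have h2 := hresp.2 _ (Scheme.ΓSpecIso (CommRingCat.of K)).commRingCatIsoToRingEquiv h
  have heq : ((normHom Γ ≫ γ).appLE ⊤ (normHom Γ ⁻¹ᵁ U) le_top).hom =
      (algebraMap K Γ(normScheme Γ, normHom Γ ⁻¹ᵁ U)).comp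
        (Scheme.ΓSpecIso (CommRingCat.of K)).commRingCatIsoToRingEquiv.toRingHom := by
    ext a
    change _ = ((normHom Γ ≫ γ).appLE ⊤ (normHom Γ ⁻¹ᵁ U) le_top).hom
      ((Scheme.ΓSpecIso (CommRingCat.of K)).inv.hom
        ((Scheme.ΓSpecIso (CommRingCat.of K)).hom.hom a))
    rw [← CommRingCat.comp_apply (Scheme.ΓSpecIso (CommRingCat.of K)).hom, Iso.hom_inv_id]
    rfl
  exact heq ▸ h2

end
end Fermat.Agent.S26.H626
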