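/-
Row S26, block CUBE, leaf C4b (helper626): `c4b : C4.Stmt.C4b K` — normalisation of an
integral proper curve over an algebraically closed field, in the exact shape of `C4/Spec.lean`.
Scheme side from `H626/NormCurve.lean`, lifting of `K`-points from `H507/C4bParts.lean`.
-/
import Fermat.Agent.S26.C4.Spec
import Fermat.Agent.S26.H626.NormCurve

set_option autoImplicit false
universe u

open CategoryTheory CategoryTheory.Limits AlgebraicGeometry NeronModelInfra

namespace Fermat.Agent.S26.H626

/-- **C4b.** Normalisation of an integral proper curve over an algebraically closed field. -/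
theorem c4b (K : Type u) [Field K] [IsAlgClosed K] : C4.Stmt.C4b K := by
  intro Γ _ γ _ hcurve
  have htr : letI := (ffStrK Γ γ).toAlgebra; Algebra.trdeg K Γ.functionField = 1 := hcurve
  haveI := isFinite_normHom Γ γ
  refine ⟨normScheme Γ, normHom Γ ≫ γ, normHom Γ, rfl, inferInstance,
    isProper_normHom_comp Γ γ, smoothOfRelativeDimension_normHom_comp Γ γ htr,
    inferInstance, surjective_normHom Γ, fun x => ?_⟩
  exact H507.exists_kpoint_lift (normHom Γ ≫ γ) γ (normHom Γ) rfl (surjective_normHom Γ) x

end Fermat.Agent.S26.H626
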