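import Mathlib

/-!
# S26, block AMPLE, leaf UFD, part U2 (helper626): the formal (Taylor) chart

Let `R` be a noetherian local `K`-algebra, formally smooth over the field `K`, with residue
field `K`.  Then there is a `K`-algebra homomorphism `τ : R → K⟦x₁,…,x_g⟧`
(`g = dim 𝔪/𝔪²`) with `τ⁻¹ ((x)ⁿ) = 𝔪ⁿ` for all `n` and with dense image.
-/

set_option autoImplicit false
set_option linter.style.haveILetI false

universe u

open IsLocalRing

namespace Fermat.Agent.S26.H626

/-! ## Part A: adic completeness for `I ^ 2` -/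

theorem isAdicComplete_sq {S : Type*} [CommRing S] (I : Ideal S) [hI : IsAdicComplete I S] :
    IsAdicComplete (I ^ 2) S := by
  have hle : ∀ n, ((I ^ 2) ^ n • ⊤ : Submodule S S) ≤ (I ^ n • ⊤ : Submodule S S) := by
    intro n
    rw [← pow_mul]
    exact Submodule.smul_mono_left (Ideal.pow_le_pow_right (by omega))
  have hH : IsHausdorff (I ^ 2) S :=
    ⟨fun x hx => hI.toIsHausdorff.haus x fun n => (hx n).mono (hle n)⟩
  have hP : IsPrecomplete (I ^ 2) S := by
    refine ⟨fun f hf => ?_⟩
    obtain ⟨L, hL⟩ := hI.toIsPrecomplete.prec (f := f) (fun {m n} hmn => (hf hmn).mono (hle m))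
    refine ⟨L, fun n => ?_⟩
    have h1 : f n ≡ f (2 * n) [SMOD ((I ^ 2) ^ n • ⊤ : Submodule S S)] := hf (by omega)
    have h2 : f (2 * n) ≡ L [SMOD ((I ^ 2) ^ n • ⊤ : Submodule S S)] := by
      have := hL (2 * n)
      rwa [← pow_mul]
    exact h1.trans h2
  exact { toIsHausdorff := hH, toIsPrecomplete := hP }

/-! ## Part B: powers of the ideal of variables in a power series ring -/

section Vars

variable (σ : Type*) [Finite σ] (A : Type*) [CommRing A]

/-- The ideal of `A⟦x⟧` generated by the variables. -/
noncomputable abbrev varsIdeal : Ideal (MvPowerSeries σ A) :=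
  Ideal.span (Set.range (MvPowerSeries.X : σ → MvPowerSeries σ A))

variable {σ A}

omit [Finite σ] in
theorem coe_mem_varsIdeal_pow {n : ℕ} {p : MvPolynomial σ A}
    (hp : p ∈ MvPolynomial.idealOfVars σ A ^ n) :
    (p : MvPowerSeries σ A) ∈ varsIdeal σ A ^ n := by
  have h1 : Ideal.map (MvPolynomial.coeToMvPowerSeries.ringHom (σ := σ) (R := A))
      (MvPolynomial.idealOfVars σ A) = varsIdeal σ A := by
    rw [MvPolynomial.idealOfVars, Ideal.map_span, ← Set.range_comp]
    congr 2
    ext i
    simp
  have h2 := Ideal.mem_map_of_mem (MvPolynomial.coeToMvPowerSeries.ringHom (σ := σ) (R := A)) hp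
  rw [Ideal.map_pow, h1] at h2
  exact h2

theorem mem_varsIdeal_pow_iff (n : ℕ) (f : MvPowerSeries σ A) :
    f ∈ varsIdeal σ A ^ n ↔ ∀ d : σ →₀ ℕ, d.degree < n → MvPowerSeries.coeff d f = 0 := by
  have key : (∀ d : σ →₀ ℕ, d.degree < n → MvPowerSeries.coeff d f = 0) ↔
      MvPowerSeries.truncTotalAlgHom σ A n f = 0 := by
    rw [MvPowerSeries.truncTotalAlgHom_apply, Ideal.Quotient.eq_zero_iff_mem,
      MvPolynomial.mem_pow_idealOfVars_iff']
    refine forall_congr' fun d => forall_congr' fun hd => ?_
    rw [MvPowerSeries.coeff_truncTotal _ hd]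
  rw [key]
  constructor
  · intro hf
    have h1 : Ideal.map (MvPowerSeries.truncTotalAlgHom σ A n).toRingHom (varsIdeal σ A) ≤
        Ideal.map (Ideal.Quotient.mk (MvPolynomial.idealOfVars σ A ^ n))
          (MvPolynomial.idealOfVars σ A) := by
      rw [Ideal.map_span, Ideal.span_le]
      rintro _ ⟨_, ⟨i, rfl⟩, rfl⟩
      have : (MvPowerSeries.truncTotalAlgHom σ A n).toRingHom (MvPowerSeries.X i) =
          Ideal.Quotient.mk (MvPolynomial.idealOfVars σ A ^ n) (MvPolynomial.X i) := by
        rw [← MvPolynomial.coe_X]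
        exact (MvPowerSeries.truncTotalAlgHom σ A n).commutes (MvPolynomial.X i)
      rw [this]
      exact Ideal.mem_map_of_mem _ (Ideal.subset_span ⟨i, rfl⟩)
    have h2 := Ideal.mem_map_of_mem (MvPowerSeries.truncTotalAlgHom σ A n).toRingHom hf
    rw [Ideal.map_pow] at h2
    have h3 := Ideal.pow_right_mono h1 n h2
    rw [← Ideal.map_pow, Ideal.map_quotient_self] at h3
    simpa using h3
  · intro hf
    -- through the adic completion
    set e := MvPowerSeries.toAdicCompletionAlgEquiv σ A with he
    have h1 : e f ∈ (AdicCompletion.eval (MvPolynomial.idealOfVars σ A) (MvPolynomial σ A) n).ker := by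
      rw [LinearMap.mem_ker]
      have : (AdicCompletion.eval (MvPolynomial.idealOfVars σ A) (MvPolynomial σ A) n) (e f) =
          (MvPowerSeries.toAdicCompletion σ A f).val n := rfl
      rw [this, MvPowerSeries.toAdicCompletion_apply_eq_mk_truncTotal]
      have h0 := hf
      rw [MvPowerSeries.truncTotalAlgHom_apply] at h0
      rw [Ideal.Quotient.eq_zero_iff_mem] at h0 ⊢
      simpa [smul_eq_mul, Ideal.mul_top] using h0
    rw [← AdicCompletion.pow_smul_top_eq_ker_eval (MvPolynomial.idealOfVars_fg σ A)] at h1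
    let N : Submodule (MvPolynomial σ A) (MvPowerSeries σ A) :=
      (varsIdeal σ A ^ n).restrictScalars (MvPolynomial σ A)
    have h2 : Submodule.map e.symm.toLinearMap
        (MvPolynomial.idealOfVars σ A ^ n • ⊤ :
          Submodule (MvPolynomial σ A) (AdicCompletion (MvPolynomial.idealOfVars σ A)
            (MvPolynomial σ A))) ≤ N := by
      rw [Submodule.map_smul'', Submodule.smul_le]
      intro p hp y _
      change p • y ∈ varsIdeal σ A ^ n
      rw [Algebra.smul_def]
      exact Ideal.mul_mem_right _ _ (coe_mem_varsIdeal_pow hp)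
    have h3 := h2 (Submodule.mem_map_of_mem h1)
    simpa [N] using h3

end Vars


section Jet

variable {K : Type u} [Field K] {R : Type u} [CommRing R] [Algebra K R] [IsLocalRing R]

/-- The residue map `R → K` of a local `K`-algebra with residue field `K`. -/
noncomputable def resK (hres : Function.Bijective (algebraMap K (ResidueField R))) : R →ₐ[K] K :=
  ((AlgEquiv.ofBijective (Algebra.ofId K (ResidueField R)) hres).symm : ResidueField R →ₐ[K] K).comp
    (IsScalarTower.toAlgHom K R (ResidueField R))

variable (hres : Function.Bijective (algebraMap K (ResidueField R)))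

theorem algebraMap_resK (r : R) :
    algebraMap K (ResidueField R) (resK hres r) = residue R r := by
  have := (AlgEquiv.ofBijective (Algebra.ofId K (ResidueField R)) hres).apply_symm_apply
    (residue R r)
  exact this

theorem resK_eq_zero_iff (r : R) : resK hres r = 0 ↔ r ∈ maximalIdeal R := by
  rw [← residue_eq_zero_iff, ← algebraMap_resK hres]
  exact (map_eq_zero_iff _ hres.1).symm

theorem sub_resK_mem (r : R) : r - algebraMap K R (resK hres r) ∈ maximalIdeal R := by
  rw [← resK_eq_zero_iff hres, map_sub, AlgHom.commutes]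
  simp

/-- The class of `r - r(0)` in the cotangent space. -/
noncomputable def cotClass (r : R) : CotangentSpace R :=
  (maximalIdeal R).toCotangent ⟨r - algebraMap K R (resK hres r), sub_resK_mem hres r⟩

theorem cotClass_add (r s : R) : cotClass hres (r + s) = cotClass hres r + cotClass hres s := by
  unfold cotClass
  rw [← map_add]
  congr 1
  ext
  simp only [map_add, Submodule.coe_add]
  ring

theorem cotClass_algebraMap (a : K) : cotClass hres (algebraMap K R a) = 0 := by
  unfold cotClass
  rw [Ideal.toCotangent_eq_zero]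
  simp

theorem cotClass_of_mem {r : R} (hr : r ∈ maximalIdeal R) :
    cotClass hres r = (maximalIdeal R).toCotangent ⟨r, hr⟩ := by
  unfold cotClass
  congr 1
  ext
  simp [(resK_eq_zero_iff hres r).2 hr]

theorem cotClass_mul (r s : R) :
    cotClass hres (r * s) = r • cotClass hres s + s • cotClass hres r := by
  unfold cotClass
  rw [← map_smul, ← map_smul, ← map_add, Ideal.toCotangent_eq]
  simp only [map_mul, Submodule.coe_add, Submodule.coe_smul, smul_eq_mul]
  have h : r * s - algebraMap K R (resK hres r) * algebraMap K R (resK hres s) -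
      (r * (s - algebraMap K R (resK hres s)) + s * (r - algebraMap K R (resK hres r))) =
      -((r - algebraMap K R (resK hres r)) * (s - algebraMap K R (resK hres s))) := by ring
  rw [h, pow_two]
  exact neg_mem (Ideal.mul_mem_mul (sub_resK_mem hres r) (sub_resK_mem hres s))

/-- Local coordinates: elements of the maximal ideal inducing a basis of the cotangent space. -/
structure Coords (R : Type u) [CommRing R] [IsLocalRing R] (g : ℕ) where
  /-- the basis of the cotangent space -/
  b : Module.Basis (Fin g) (ResidueField R) (CotangentSpace R)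
  /-- the coordinates -/
  t : Fin g → R
  mem : ∀ i, t i ∈ maximalIdeal R
  spec : ∀ i, (maximalIdeal R).toCotangent ⟨t i, mem i⟩ = b i

theorem nonempty_coords (R : Type u) [CommRing R] [IsLocalRing R] [IsNoetherianRing R] :
    Nonempty (Coords R (Module.finrank (ResidueField R) (CotangentSpace R))) := by
  let b := Module.finBasis (ResidueField R) (CotangentSpace R)
  choose t ht using fun i => (maximalIdeal R).toCotangent_surjective (b i)
  exact ⟨⟨b, fun i => (t i : R), fun i => (t i).2, fun i => ht i⟩⟩

variable {g : ℕ} (c : Coords R g)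

/-- The coordinates of the first order part of `r`. -/
noncomputable def coordK (r : R) (i : Fin g) : K :=
  (AlgEquiv.ofBijective (Algebra.ofId K (ResidueField R)) hres).symm
    (c.b.repr (cotClass hres r) i)

theorem coordK_add (r s : R) (i : Fin g) :
    coordK hres c (r + s) i = coordK hres c r i + coordK hres c s i := by
  simp [coordK, cotClass_add]

theorem coordK_algebraMap (a : K) (i : Fin g) : coordK hres c (algebraMap K R a) i = 0 := by
  simp [coordK, cotClass_algebraMap]

theorem coordK_mul (r s : R) (i : Fin g) :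
    coordK hres c (r * s) i =
      resK hres r * coordK hres c s i + resK hres s * coordK hres c r i := by
  have h1 : ∀ (a : R) (v : CotangentSpace R), a • v = residue R a • v := fun a v =>
    (IsScalarTower.algebraMap_smul (ResidueField R) a v).symm
  simp only [coordK, cotClass_mul, h1, map_add, map_smul, Finsupp.coe_add, Pi.add_apply,
    Finsupp.coe_smul, Pi.smul_apply, smul_eq_mul, map_mul]
  rfl

theorem coordK_t (i j : Fin g) : coordK hres c (c.t j) i = if i = j then 1 else 0 := by
  simp only [coordK, cotClass_of_mem hres (c.mem j), c.spec, Module.Basis.repr_self,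
    Finsupp.single_apply]
  split_ifs with h1 h2 h2
  · simp
  · exact absurd h1.symm h2
  · exact absurd h2.symm h1
  · simp

/-- The `1`-jet of `r` as a power series. -/
noncomputable def jetFun (r : R) : MvPowerSeries (Fin g) K :=
  MvPowerSeries.C (resK hres r) + ∑ i, MvPowerSeries.C (coordK hres c r i) * MvPowerSeries.X i

theorem jetFun_t (j : Fin g) : jetFun hres c (c.t j) = MvPowerSeries.X j := by
  simp [jetFun, coordK_t, (resK_eq_zero_iff hres _).2 (c.mem j)]

theorem jetFun_sub_C_mem (r : R) :
    jetFun hres c r - MvPowerSeries.C (resK hres r) ∈ varsIdeal (Fin g) K := by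
  simp only [jetFun, add_sub_cancel_left]
  exact Ideal.sum_mem _ fun i _ => Ideal.mul_mem_left _ _ (Ideal.subset_span ⟨i, rfl⟩)

theorem jetFun_mul (r s : R) :
    jetFun hres c (r * s) - jetFun hres c r * jetFun hres c s ∈ varsIdeal (Fin g) K ^ 2 := by
  have h : jetFun hres c (r * s) - jetFun hres c r * jetFun hres c s =
      -((jetFun hres c r - MvPowerSeries.C (resK hres r)) *
        (jetFun hres c s - MvPowerSeries.C (resK hres s))) := by
    simp only [jetFun, add_sub_cancel_left, coordK_mul, map_mul, map_add, add_mul,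
      Finset.sum_add_distrib, mul_assoc, ← Finset.mul_sum]
    ring
  rw [h, pow_two]
  exact neg_mem (Ideal.mul_mem_mul (jetFun_sub_C_mem hres c r) (jetFun_sub_C_mem hres c s))

/-- The `1`-jet as an algebra homomorphism `R → K⟦x⟧ / (x)²`. -/
noncomputable def jet : R →ₐ[K] MvPowerSeries (Fin g) K ⧸ (varsIdeal (Fin g) K ^ 2) where
  toFun r := Ideal.Quotient.mk _ (jetFun hres c r)
  map_one' := by
    have : jetFun hres c (1 : R) = 1 := by
      have h := coordK_algebraMap hres c (1 : K)
      simp only [map_one] at h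
      simp [jetFun, h]
    rw [this, map_one]
  map_mul' r s := by
    rw [← map_mul, Ideal.Quotient.mk_eq_mk_iff_sub_mem]
    exact jetFun_mul hres c r s
  map_zero' := by
    have : jetFun hres c (0 : R) = 0 := by
      have h := coordK_algebraMap hres c (0 : K)
      simp only [map_zero] at h
      simp [jetFun, h]
    rw [this, map_zero]
  map_add' r s := by
    rw [← map_add]
    congr 1
    simp only [jetFun, coordK_add, map_add, add_mul, Finset.sum_add_distrib]
    ring
  commutes' a := by
    have : jetFun hres c (algebraMap K R a) = MvPowerSeries.C a := by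
      simp [jetFun, coordK_algebraMap]
    rw [this]
    rfl

end Jet


section Chart

variable {K : Type u} [Field K] {R : Type u} [CommRing R] [Algebra K R] [IsLocalRing R]
  (hres : Function.Bijective (algebraMap K (ResidueField R))) {g : ℕ} (c : Coords R g)

theorem exists_lift_jet [Algebra.FormallySmooth K R] :
    ∃ τ : R →ₐ[K] MvPowerSeries (Fin g) K,
      ∀ r, τ r - jetFun hres c r ∈ varsIdeal (Fin g) K ^ 2 := by
  haveI : IsAdicComplete (varsIdeal (Fin g) K ^ 2) (MvPowerSeries (Fin g) K) :=
    isAdicComplete_sq _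
  obtain ⟨τ, hτ⟩ := Algebra.FormallySmooth.exists_mkₐ_comp_eq_of_isAdicComplete
    (I := varsIdeal (Fin g) K ^ 2) (jet hres c)
  refine ⟨τ, fun r => ?_⟩
  have h := congrArg (fun f => f r) hτ
  simp only [AlgHom.comp_apply, Ideal.Quotient.mkₐ_eq_mk] at h
  rw [← Ideal.Quotient.mk_eq_mk_iff_sub_mem]
  exact h

variable {hres c} {τ : R →ₐ[K] MvPowerSeries (Fin g) K}
  (hτ : ∀ r, τ r - jetFun hres c r ∈ varsIdeal (Fin g) K ^ 2)

include hτ

theorem tau_t_sub_X_mem (i : Fin g) :
    τ (c.t i) - MvPowerSeries.X i ∈ varsIdeal (Fin g) K ^ 2 := by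
  have := hτ (c.t i)
  rwa [jetFun_t] at this

theorem tau_mem_of_mem {r : R} (hr : r ∈ maximalIdeal R) : τ r ∈ varsIdeal (Fin g) K := by
  have h1 := Ideal.pow_le_self (two_ne_zero) (hτ r)
  have h2 := jetFun_sub_C_mem hres c r
  rw [(resK_eq_zero_iff hres r).2 hr, map_zero, sub_zero] at h2
  have := add_mem h1 h2
  rwa [sub_add_cancel] at this

theorem tau_mem_pow_of_mem {n : ℕ} {r : R} (hr : r ∈ maximalIdeal R ^ n) :
    τ r ∈ varsIdeal (Fin g) K ^ n := by
  have h1 : Ideal.map τ.toRingHom (maximalIdeal R) ≤ varsIdeal (Fin g) K := by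
    rw [Ideal.map_le_iff_le_comap]
    exact fun r hr => tau_mem_of_mem hτ hr
  have h2 := Ideal.mem_map_of_mem τ.toRingHom hr
  rw [Ideal.map_pow] at h2
  exact Ideal.pow_right_mono h1 n h2

omit hτ in
theorem aeval_mem_pow {n : ℕ} {p : MvPolynomial (Fin g) K}
    (hp : p ∈ MvPolynomial.idealOfVars (Fin g) K ^ n) :
    MvPolynomial.aeval c.t p ∈ maximalIdeal R ^ n := by
  have h1 : Ideal.map (MvPolynomial.aeval (R := K) c.t).toRingHom
      (MvPolynomial.idealOfVars (Fin g) K) ≤ maximalIdeal R := by
    rw [MvPolynomial.idealOfVars, Ideal.map_span, Ideal.span_le]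
    rintro _ ⟨_, ⟨i, rfl⟩, rfl⟩
    simpa using c.mem i
  have h2 := Ideal.mem_map_of_mem (MvPolynomial.aeval (R := K) c.t).toRingHom hp
  rw [Ideal.map_pow] at h2
  exact Ideal.pow_right_mono h1 n h2

/-- The defect `τ (p(t)) - p(x)`. -/
theorem defect_mem (p : MvPolynomial (Fin g) K) :
    τ (MvPolynomial.aeval c.t p) - (p : MvPowerSeries (Fin g) K) ∈ varsIdeal (Fin g) K := by
  let q := Ideal.Quotient.mkₐ K (varsIdeal (Fin g) K)
  have h : (q.comp τ).comp (MvPolynomial.aeval c.t) =
      q.comp (MvPolynomial.coeToMvPowerSeries.algHom K) := by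
    apply MvPolynomial.algHom_ext
    intro i
    simp only [AlgHom.comp_apply, MvPolynomial.aeval_X, q, Ideal.Quotient.mkₐ_eq_mk,
      MvPolynomial.coeToMvPowerSeries.algHom_apply, MvPolynomial.coe_X, Algebra.algebraMap_self,
      MvPowerSeries.map_id, RingHom.id_apply]
    rw [Ideal.Quotient.eq_zero_iff_mem.2 (tau_mem_of_mem hτ (c.mem i)),
      Ideal.Quotient.eq_zero_iff_mem.2 (Ideal.subset_span (Set.mem_range_self i))]
  have h2 := congrArg (fun f => f p) h
  simp only [AlgHom.comp_apply, q, Ideal.Quotient.mkₐ_eq_mk,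
    MvPolynomial.coeToMvPowerSeries.algHom_apply, Algebra.algebraMap_self,
      MvPowerSeries.map_id, RingHom.id_apply] at h2
  rwa [Ideal.Quotient.mk_eq_mk_iff_sub_mem] at h2

omit hτ in
theorem defect_mul (p q : MvPolynomial (Fin g) K) :
    τ (MvPolynomial.aeval c.t (p * q)) - ((p * q : MvPolynomial (Fin g) K) : MvPowerSeries (Fin g) K) =
      (τ (MvPolynomial.aeval c.t p) - (p : MvPowerSeries (Fin g) K)) *
          τ (MvPolynomial.aeval c.t q) +
        (p : MvPowerSeries (Fin g) K) *
          (τ (MvPolynomial.aeval c.t q) - (q : MvPowerSeries (Fin g) K)) := by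
  rw [map_mul, map_mul, MvPolynomial.coe_mul]
  ring

theorem tau_aeval_mem {p : MvPolynomial (Fin g) K}
    (hp : p ∈ MvPolynomial.idealOfVars (Fin g) K) :
    τ (MvPolynomial.aeval c.t p) ∈ varsIdeal (Fin g) K := by
  have := aeval_mem_pow (c := c) (n := 1) (by simpa using hp)
  exact tau_mem_of_mem hτ (by simpa using this)

theorem defect_mem_sq {p : MvPolynomial (Fin g) K}
    (hp : p ∈ MvPolynomial.idealOfVars (Fin g) K) :
    τ (MvPolynomial.aeval c.t p) - (p : MvPowerSeries (Fin g) K) ∈ varsIdeal (Fin g) K ^ 2 := by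
  induction hp using Submodule.span_induction with
  | mem x hx =>
    obtain ⟨i, rfl⟩ := hx
    simpa using tau_t_sub_X_mem hτ i
  | zero => simp
  | add x y _ _ hx hy =>
    have := add_mem hx hy
    rw [map_add, map_add, MvPolynomial.coe_add]
    convert this using 1
    ring
  | smul a x hx ih =>
    rw [smul_eq_mul, defect_mul, pow_two]
    refine add_mem (Ideal.mul_mem_mul (defect_mem hτ a) (tau_aeval_mem hτ hx)) ?_
    rw [← pow_two]
    exact Ideal.mul_mem_left _ _ ih

theorem defect_mem_pow (n : ℕ) {p : MvPolynomial (Fin g) K}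
    (hp : p ∈ MvPolynomial.idealOfVars (Fin g) K ^ n) :
    τ (MvPolynomial.aeval c.t p) - (p : MvPowerSeries (Fin g) K) ∈
      varsIdeal (Fin g) K ^ (n + 1) := by
  induction n generalizing p with
  | zero => simpa using defect_mem hτ p
  | succ n ih =>
    rw [pow_succ] at hp
    refine Submodule.mul_induction_on hp (fun a ha b hb => ?_) (fun x y hx hy => ?_)
    · rw [defect_mul]
      refine add_mem ?_ ?_
      · rw [pow_succ (varsIdeal (Fin g) K) (n + 1)]
        exact Ideal.mul_mem_mul (ih ha) (tau_aeval_mem hτ hb)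
      · have : varsIdeal (Fin g) K ^ (n + 1 + 1) =
            varsIdeal (Fin g) K ^ n * varsIdeal (Fin g) K ^ 2 := by
          rw [← pow_add]
        rw [this]
        exact Ideal.mul_mem_mul (coe_mem_varsIdeal_pow ha) (defect_mem_sq hτ hb)
    · have := add_mem hx hy
      rw [map_add, map_add, MvPolynomial.coe_add]
      convert this using 1
      ring

end Chart


section Main

variable {K : Type u} [Field K] {R : Type u} [CommRing R] [Algebra K R] [IsLocalRing R]
  (hres : Function.Bijective (algebraMap K (ResidueField R))) {g : ℕ} (c : Coords R g)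

/-- Nakayama: coordinates generate the maximal ideal. -/
theorem maximalIdeal_eq_span [IsNoetherianRing R] :
    maximalIdeal R = Ideal.span (Set.range c.t) := by
  apply le_antisymm
  · have h := (CotangentSpace.span_image_eq_top_iff (R := R)
      (s := Set.range fun i => (⟨c.t i, c.mem i⟩ : maximalIdeal R))).1 (by
        rw [← Set.range_comp]
        have : ⇑(maximalIdeal R).toCotangent ∘ (fun i => (⟨c.t i, c.mem i⟩ : maximalIdeal R)) =
            ⇑c.b := funext c.spec
        rw [this]
        exact c.b.span_eq)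
    intro r hr
    have h1 : (⟨r, hr⟩ : maximalIdeal R) ∈
        Submodule.span R (Set.range fun i => (⟨c.t i, c.mem i⟩ : maximalIdeal R)) := by
      rw [h]; trivial
    have h2 := Submodule.apply_mem_span_image_of_mem_span (maximalIdeal R).subtype h1
    rw [← Set.range_comp] at h2
    exact h2
  · rw [Ideal.span_le]
    rintro _ ⟨i, rfl⟩
    exact c.mem i

theorem map_aeval_idealOfVars_pow [IsNoetherianRing R] (n : ℕ) :
    Ideal.map (MvPolynomial.aeval (R := K) c.t).toRingHom
      (MvPolynomial.idealOfVars (Fin g) K ^ n) = maximalIdeal R ^ n := by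
  rw [Ideal.map_pow, maximalIdeal_eq_span c, MvPolynomial.idealOfVars, Ideal.map_span,
    ← Set.range_comp]
  congr 3
  ext i
  simp

include hres in
/-- Every element of `𝔪ⁿ` is a polynomial of order `≥ n` in the coordinates, modulo `𝔪ⁿ⁺¹`. -/
theorem exists_poly_sub_mem [IsNoetherianRing R] (n : ℕ) {r : R} (hr : r ∈ maximalIdeal R ^ n) :
    ∃ p ∈ MvPolynomial.idealOfVars (Fin g) K ^ n,
      r - MvPolynomial.aeval c.t p ∈ maximalIdeal R ^ (n + 1) := by
  rw [← map_aeval_idealOfVars_pow (K := K) c n, Ideal.map] at hr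
  induction hr using Submodule.span_induction with
  | mem x hx =>
    obtain ⟨p, hp, rfl⟩ := hx
    exact ⟨p, hp, by simp⟩
  | zero => exact ⟨0, zero_mem _, by simp⟩
  | add x y _ _ hx hy =>
    obtain ⟨p, hp, hx⟩ := hx
    obtain ⟨q, hq, hy⟩ := hy
    refine ⟨p + q, add_mem hp hq, ?_⟩
    have := add_mem hx hy
    rw [map_add]
    convert this using 1
    ring
  | smul a x _ hx =>
    obtain ⟨p, hp, hx⟩ := hx
    refine ⟨MvPolynomial.C (resK hres a) * p, Ideal.mul_mem_left _ _ hp, ?_⟩
    have h1 : a • x - MvPolynomial.aeval c.t (MvPolynomial.C (resK hres a) * p) =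
        a * (x - MvPolynomial.aeval c.t p) +
          (a - algebraMap K R (resK hres a)) * MvPolynomial.aeval c.t p := by
      rw [map_mul, MvPolynomial.aeval_C, smul_eq_mul]
      ring
    rw [h1]
    refine add_mem (Ideal.mul_mem_left _ _ hx) ?_
    rw [pow_succ']
    exact Ideal.mul_mem_mul (sub_resK_mem hres a) (aeval_mem_pow (c := c) hp)

variable {hres c} {τ : R →ₐ[K] MvPowerSeries (Fin g) K}
  (hτ : ∀ r, τ r - jetFun hres c r ∈ varsIdeal (Fin g) K ^ 2)

include hτ

omit hτ in
theorem poly_mem_of_coe_mem {n : ℕ} {p : MvPolynomial (Fin g) K}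
    (hp : (p : MvPowerSeries (Fin g) K) ∈ varsIdeal (Fin g) K ^ n) :
    p ∈ MvPolynomial.idealOfVars (Fin g) K ^ n := by
  rw [mem_varsIdeal_pow_iff] at hp
  rw [MvPolynomial.mem_pow_idealOfVars_iff']
  intro d hd
  have := hp d hd
  rwa [MvPolynomial.coeff_coe] at this

theorem mem_pow_of_tau_mem [IsNoetherianRing R] (n : ℕ) {r : R}
    (hr : τ r ∈ varsIdeal (Fin g) K ^ n) : r ∈ maximalIdeal R ^ n := by
  induction n with
  | zero => simp
  | succ n ih =>
    have hr' : r ∈ maximalIdeal R ^ n := ih (Ideal.pow_le_pow_right (Nat.le_succ n) hr)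
    obtain ⟨p, hp, hrp⟩ := exists_poly_sub_mem hres c n hr'
    have h1 : (p : MvPowerSeries (Fin g) K) =
        τ r - (τ (MvPolynomial.aeval c.t p) - (p : MvPowerSeries (Fin g) K)) -
          τ (r - MvPolynomial.aeval c.t p) := by
      rw [map_sub]; ring
    have h2 : (p : MvPowerSeries (Fin g) K) ∈ varsIdeal (Fin g) K ^ (n + 1) := by
      rw [h1]
      exact sub_mem (sub_mem hr (defect_mem_pow hτ n hp)) (tau_mem_pow_of_mem hτ hrp)
    have h3 := aeval_mem_pow (c := c) (poly_mem_of_coe_mem h2)
    have := add_mem hrp h3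
    rwa [sub_add_cancel] at this

theorem comap_tau_pow [IsNoetherianRing R] (n : ℕ) :
    (varsIdeal (Fin g) K ^ n).comap τ = maximalIdeal R ^ n := by
  ext r
  exact ⟨fun h => mem_pow_of_tau_mem hτ n h, fun h => tau_mem_pow_of_mem hτ h⟩

theorem dense_tau (n : ℕ) (s : MvPowerSeries (Fin g) K) :
    ∃ r : R, s - τ r ∈ varsIdeal (Fin g) K ^ n := by
  induction n with
  | zero => exact ⟨0, by simp⟩
  | succ n ih =>
    obtain ⟨r, hr⟩ := ih
    set u := s - τ r with hu
    set p := MvPowerSeries.truncTotal (n + 1) u with hp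
    have h1 : u - (p : MvPowerSeries (Fin g) K) ∈ varsIdeal (Fin g) K ^ (n + 1) := by
      rw [mem_varsIdeal_pow_iff]
      intro d hd
      rw [map_sub, MvPolynomial.coeff_coe, hp, MvPowerSeries.coeff_truncTotal _ hd, sub_self]
    have h2 : p ∈ MvPolynomial.idealOfVars (Fin g) K ^ n := by
      rw [MvPolynomial.mem_pow_idealOfVars_iff']
      intro d hd
      rw [hp, MvPowerSeries.coeff_truncTotal _ (Nat.lt_succ_of_lt hd)]
      exact (mem_varsIdeal_pow_iff n u).1 hr d hd
    refine ⟨r + MvPolynomial.aeval c.t p, ?_⟩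
    have h3 : s - τ (r + MvPolynomial.aeval c.t p) =
        (u - (p : MvPowerSeries (Fin g) K)) -
          (τ (MvPolynomial.aeval c.t p) - (p : MvPowerSeries (Fin g) K)) := by
      rw [map_add, hu]; ring
    rw [h3]
    exact sub_mem h1 (defect_mem_pow hτ n h2)

end Main

/-- The maximal ideal of `K⟦x⟧` is the ideal of the variables. -/
theorem maximalIdeal_mvPowerSeries (K : Type u) [Field K] (σ : Type*) [Finite σ] :
    maximalIdeal (MvPowerSeries σ K) = varsIdeal σ K := by
  ext f
  rw [mem_maximalIdeal, mem_nonunits_iff, MvPowerSeries.isUnit_iff_constantCoeff, isUnit_iff_ne_zero,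
    not_not, ← pow_one (varsIdeal σ K), mem_varsIdeal_pow_iff]
  constructor
  · intro h d hd
    have : d = 0 := by
      rw [Nat.lt_one_iff] at hd
      exact (Finsupp.degree_eq_zero_iff d).1 hd
    rw [this]
    exact h
  · intro h
    exact h 0 (by simp)

/-- **U2, local form.**  The formal (Taylor) chart of a formally smooth noetherian local
`K`-algebra with residue field `K`. -/
theorem exists_formalChart_of_isLocalRing (K : Type u) [Field K] (R : Type u) [CommRing R]
    [Algebra K R] [IsLocalRing R] [IsNoetherianRing R] [Algebra.FormallySmooth K R]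
    (hres : Function.Bijective (algebraMap K (ResidueField R))) :
    ∃ τ : R →ₐ[K] MvPowerSeries (Fin (Module.finrank (ResidueField R) (CotangentSpace R))) K,
      (∀ n : ℕ, (maximalIdeal (MvPowerSeries
          (Fin (Module.finrank (ResidueField R) (CotangentSpace R))) K) ^ n).comap τ =
            maximalIdeal R ^ n) ∧
        ∀ (n : ℕ) (s : MvPowerSeries (Fin (Module.finrank (ResidueField R) (CotangentSpace R))) K),
          ∃ r : R, s - τ r ∈ maximalIdeal (MvPowerSeries
            (Fin (Module.finrank (ResidueField R) (CotangentSpace R))) K) ^ n := by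
  obtain ⟨c⟩ := nonempty_coords R
  obtain ⟨τ, hτ⟩ := exists_lift_jet hres c
  refine ⟨τ, fun n => ?_, fun n s => ?_⟩
  · rw [maximalIdeal_mvPowerSeries]
    exact comap_tau_pow hτ n
  · rw [maximalIdeal_mvPowerSeries]
    exact dense_tau hτ n s

end Fermat.Agent.S26.H626
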